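/-
Programme MAZ (S15), brick F-D3 (helper34), file 1: **push-forward of divisors of integral functions
under a place reduction** (abstract toolkit, any level `N`, any valuation ring `A ⊂ L`).

`hr : IsPlaceReductionAlong A π N r` says `r_*(div y) = div(ȳ)` for every integral `q`-series `y`
(coefficients in `A`) of the function field with nonzero reduction `ȳ`.  Consequences:

* `exists_zero_of_zero_sub_const` : if `c ∈ A` reduces to `0` and `x` is a zero of `u - c`, then
  some zero `z` of `u` has `r z = r x`   (compare `u - c` and `u`: same reduction);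
* `ord_eq_zero_of_pole_order` : if `P∞` is a pole of `g` of order `m`, `r P∞ = Q` is a pole of `ḡ`
  of the same order `m` and no other pole of `g` maps to `Q`, then no zero of `g - c` (`c ∈ A`)
  maps to `Q`: places with an integral value of `g` stay away from `Q`.
-/
import Mathlib
import Fermat.Prelude.Def_ModularCurve_ReductionModL
import Fermat.Agent.X0.FFResidue

set_option autoImplicit false
set_option linter.unusedSectionVars false

noncomputable section

open HahnSeries IntermediateField AlgebraicCurve ModularCurve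
open Fermat.Agent.X0.FF

namespace Fermat.Agent.MAZ.RedFibre34

/-! ### Push-forward of integer-valued finitely supported functions -/

section Push

variable {α β : Type*}

open Classical in
theorem mapDomain_apply_eq_sum (r : α → β) (D : α →₀ ℤ) (Q : β) :
    Finsupp.mapDomain r D Q = ∑ P ∈ D.support, if r P = Q then D P else 0 := by
  rw [Finsupp.mapDomain, Finsupp.sum_apply, Finsupp.sum]
  refine Finset.sum_congr rfl fun P _ => ?_
  rw [Finsupp.single_apply]

/-- A push-forward that vanishes at `Q` and is nonnegative on the fibre of `Q` vanishes on the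
fibre. -/
theorem eq_zero_of_mapDomain_eq_zero (r : α → β) (E : α →₀ ℤ) (Q : β)
    (hnn : ∀ P, r P = Q → 0 ≤ E P) (h0 : Finsupp.mapDomain r E Q = 0) (P : α) (hP : r P = Q) :
    E P = 0 := by
  classical
  rw [mapDomain_apply_eq_sum] at h0
  by_cases hPs : P ∈ E.support
  · have hnn' : ∀ P' ∈ E.support, 0 ≤ (if r P' = Q then E P' else 0) := by
      intro P' _
      split_ifs with h
      · exact hnn P' h
      · exact le_rfl
    have h1 := (Finset.sum_eq_zero_iff_of_nonneg hnn').mp h0 P hPs
    rwa [if_pos hP] at h1
  · exact Finsupp.notMem_support_iff.mp hPs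

/-- A push-forward that vanishes at `r x` while `E x > 0` has a negative coefficient on the fibre. -/
theorem exists_neg_of_mapDomain_eq_zero (r : α → β) (E : α →₀ ℤ) (x : α)
    (h0 : Finsupp.mapDomain r E (r x) = 0) (hx : 0 < E x) : ∃ z, r z = r x ∧ E z < 0 := by
  by_contra hcon
  push Not at hcon
  have := eq_zero_of_mapDomain_eq_zero r E (r x) (fun P hP => hcon P hP) h0 x rfl
  omega

end Push

/-! ### Integral functions -/

section IntFun

variable {L : Type*} [Field L] [Algebra ℚ L] (A : ValuationSubring L) {k : Type*} [Field k]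
  (π : A →+* k) (N : ℕ)

/-- An integral function: a `q`-series with coefficients in `A` lying in the function field over
`L`, whose reduction lies in the function field over `k`. -/
structure IntFun where
  y : LaurentSeries A
  memL : coeffMap A.subtype y ∈ laurentBaseChange L (modularFunctionFieldFull N)
  memk : coeffMap π y ∈ modularFunctionFieldFullC k N

namespace IntFun

variable {A π N}

/-- The function over `L`. -/
def toL (Y : IntFun A π N) : laurentBaseChange L (modularFunctionFieldFull N) :=
  ⟨coeffMap A.subtype Y.y, Y.memL⟩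

/-- The reduced function over `k`. -/
def tok (Y : IntFun A π N) : modularFunctionFieldFullC k N := ⟨coeffMap π Y.y, Y.memk⟩

theorem tok_ne_zero_iff (Y : IntFun A π N) : Y.tok ≠ 0 ↔ coeffMap π Y.y ≠ 0 := by
  rw [Ne, Ne, ← Subtype.coe_inj]
  rfl

theorem toL_ne_zero_of_tok (Y : IntFun A π N) (h : Y.tok ≠ 0) : Y.toL ≠ 0 := by
  intro h0
  apply h
  have h1 : coeffMap A.subtype Y.y = 0 := congrArg Subtype.val h0
  have h2 : Y.y = 0 := by
    ext n
    have := congrArg (fun z => z.coeff n) h1
    simp only [coeffMap_coeff, HahnSeries.coeff_zero] at this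
    rw [HahnSeries.coeff_zero]
    exact this
  apply Subtype.ext
  show coeffMap π Y.y = 0
  rw [h2, map_zero]

/-- The constant function `c ∈ A`. -/
def const (c : A) : IntFun A π N where
  y := HahnSeries.single 0 c
  memL := by
    rw [coeffMap_single, ← algebraMap_laurentSeries_eq_single]
    exact (laurentBaseChange L (modularFunctionFieldFull N)).algebraMap_mem _
  memk := by
    rw [coeffMap_single, ← algebraMap_laurentSeries_eq_single]
    exact (modularFunctionFieldFullC k N).algebraMap_mem _

theorem toL_const (c : A) :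
    (const c : IntFun A π N).toL =
      algebraMap L (laurentBaseChange L (modularFunctionFieldFull N)) (c : L) := by
  apply Subtype.ext
  show coeffMap A.subtype (HahnSeries.single 0 c) = _
  rw [coeffMap_single, ← algebraMap_laurentSeries_eq_single]
  rfl

theorem tok_const (c : A) :
    (const c : IntFun A π N).tok = algebraMap k (modularFunctionFieldFullC k N) (π c) := by
  apply Subtype.ext
  show coeffMap π (HahnSeries.single 0 c) = _
  rw [coeffMap_single, ← algebraMap_laurentSeries_eq_single]
  rfl

/-- The difference of two integral functions. -/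
def sub (Y Z : IntFun A π N) : IntFun A π N where
  y := Y.y - Z.y
  memL := by
    rw [map_sub]
    exact sub_mem Y.memL Z.memL
  memk := by
    rw [map_sub]
    exact sub_mem Y.memk Z.memk

theorem toL_sub (Y Z : IntFun A π N) : (Y.sub Z).toL = Y.toL - Z.toL := by
  apply Subtype.ext
  show coeffMap A.subtype (Y.y - Z.y) = _
  rw [map_sub]
  rfl

theorem tok_sub (Y Z : IntFun A π N) : (Y.sub Z).tok = Y.tok - Z.tok := by
  apply Subtype.ext
  show coeffMap π (Y.y - Z.y) = _
  rw [map_sub]
  rfl

/-- The product of two integral functions. -/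
def mul (Y Z : IntFun A π N) : IntFun A π N where
  y := Y.y * Z.y
  memL := by
    rw [map_mul]
    exact mul_mem Y.memL Z.memL
  memk := by
    rw [map_mul]
    exact mul_mem Y.memk Z.memk

theorem toL_mul (Y Z : IntFun A π N) : (Y.mul Z).toL = Y.toL * Z.toL := by
  apply Subtype.ext
  show coeffMap A.subtype (Y.y * Z.y) = _
  rw [map_mul]
  rfl

theorem tok_mul (Y Z : IntFun A π N) : (Y.mul Z).tok = Y.tok * Z.tok := by
  apply Subtype.ext
  show coeffMap π (Y.y * Z.y) = _
  rw [map_mul]
  rfl

/-- Powers of an integral function. -/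
def pow (Y : IntFun A π N) (n : ℕ) : IntFun A π N where
  y := Y.y ^ n
  memL := by
    rw [map_pow]
    exact pow_mem Y.memL n
  memk := by
    rw [map_pow]
    exact pow_mem Y.memk n

theorem toL_pow (Y : IntFun A π N) (n : ℕ) : (Y.pow n).toL = Y.toL ^ n := by
  apply Subtype.ext
  show coeffMap A.subtype (Y.y ^ n) = _
  rw [map_pow]
  rfl

theorem tok_pow (Y : IntFun A π N) (n : ℕ) : (Y.pow n).tok = Y.tok ^ n := by
  apply Subtype.ext
  show coeffMap π (Y.y ^ n) = _
  rw [map_pow]
  rfl

end IntFun

end IntFun

/-! ### Consequences of a place reduction -/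

section Reduction

variable {L : Type*} [Field L] [Algebra ℚ L] {A : ValuationSubring L} {k : Type*} [Field k]
  {π : A →+* k} {N : ℕ}
  {r : Place L (laurentBaseChange L (modularFunctionFieldFull N)) →
    Place k (modularFunctionFieldFullC k N)}

/-- The defining property of a place reduction, for integral functions. -/
theorem push_ord (hr : IsPlaceReductionAlong A π N r) (Y : IntFun A π N) (hY : Y.tok ≠ 0)
    (D : Divisor L (laurentBaseChange L (modularFunctionFieldFull N)))
    (hD : ∀ P, D P = P.ord Y.toL) (Q : Place k (modularFunctionFieldFullC k N)) :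
    Finsupp.mapDomain r D Q = Q.ord Y.tok :=
  hr.2 Y.y Y.memL Y.memk ((IntFun.tok_ne_zero_iff Y).mp hY) D hD Q

variable [HasPrincipalDivisors L (laurentBaseChange L (modularFunctionFieldFull N))]

/-- Two integral functions with the same reduction have the same push-forward divisor. -/
theorem mapDomain_sub_eq_zero (hr : IsPlaceReductionAlong A π N r) (Y Z : IntFun A π N)
    (hY : Y.tok ≠ 0) (hYZ : Y.tok = Z.tok)
    (D E : Divisor L (laurentBaseChange L (modularFunctionFieldFull N)))
    (hD : ∀ P, D P = P.ord Y.toL) (hE : ∀ P, E P = P.ord Z.toL)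
    (Q : Place k (modularFunctionFieldFullC k N)) :
    Finsupp.mapDomain r (D - E) Q = 0 := by
  rw [Finsupp.mapDomain_sub, Finsupp.sub_apply, push_ord hr Y hY D hD Q,
    push_ord hr Z (hYZ ▸ hY) E hE Q, hYZ, sub_self]

/-- **Zeros of `u - c` lie over zeros of `u`** when `c ∈ A` reduces to `0`. -/
theorem exists_zero_of_zero_sub_const (hr : IsPlaceReductionAlong A π N r) (U : IntFun A π N)
    (hU : U.tok ≠ 0) (c : A) (hc : π c = 0)
    (x : Place L (laurentBaseChange L (modularFunctionFieldFull N)))
    (hne : U.toL - algebraMap L _ (c : L) ≠ 0)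
    (hx : 0 < x.ord (U.toL - algebraMap L _ (c : L))) :
    ∃ z, r z = r x ∧ 0 < z.ord U.toL := by
  rcases eq_or_ne (c : L) 0 with hc0 | hc0
  · refine ⟨x, rfl, ?_⟩
    rwa [hc0, map_zero, sub_zero] at hx
  set Y : IntFun A π N := U.sub (IntFun.const c) with hYdef
  have hYL : Y.toL = U.toL - algebraMap L _ (c : L) := by
    rw [hYdef, IntFun.toL_sub, IntFun.toL_const]
  have hYk : Y.tok = U.tok := by
    rw [hYdef, IntFun.tok_sub, IntFun.tok_const, hc, map_zero, sub_zero]
  have hUL : U.toL ≠ 0 := U.toL_ne_zero_of_tok hU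
  obtain ⟨D, hD, -⟩ := HasPrincipalDivisors.exists_divisor (K := L) Y.toL (by rw [hYL]; exact hne)
  obtain ⟨E, hE, -⟩ := HasPrincipalDivisors.exists_divisor (K := L) U.toL hUL
  have h0 := mapDomain_sub_eq_zero hr Y U (hYk ▸ hU) hYk D E hD hE (r x)
  -- at `x`: `ord (u - c) > 0 = ord u`
  have hcF : algebraMap L (laurentBaseChange L (modularFunctionFieldFull N)) (c : L) ≠ 0 :=
    (map_ne_zero_iff _ (algebraMap L _).injective).mpr hc0
  have hxU : x.ord U.toL = 0 := by
    have h1 : U.toL = algebraMap L _ (c : L) + (U.toL - algebraMap L _ (c : L)) := by ring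
    rw [h1, ffp_ord_add_eq_of_lt x hcF (by rw [ffp_ord_algebraMap]; exact hx), ffp_ord_algebraMap]
  have hEx : 0 < (D - E) x := by
    rw [Finsupp.sub_apply, hD, hE, hYL, hxU, sub_zero]
    exact hx
  obtain ⟨z, hz, hzneg⟩ := exists_neg_of_mapDomain_eq_zero r (D - E) x h0 hEx
  refine ⟨z, hz, ?_⟩
  rw [Finsupp.sub_apply, hD, hE, hYL] at hzneg
  -- `ord_z (u - c) < ord_z u`; if `ord_z u ≤ 0` then `ord_z (u - c) = ord_z u` or both vanish
  by_contra hzU
  push Not at hzU
  rcases hzU.lt_or_eq with hlt | heq
  · -- pole of `u`: `ord (u - c) = ord u`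
    have h1 : z.ord (U.toL - algebraMap L _ (c : L)) = z.ord U.toL := by
      rw [sub_eq_add_neg]
      apply ffp_ord_add_eq_of_lt z hUL
      rw [ffp_ord_neg, ffp_ord_algebraMap]
      exact hlt
    omega
  · -- `ord u = 0`: `ord (u - c) ≥ 0`
    have h1 : 0 ≤ z.ord (U.toL - algebraMap L _ (c : L)) := by
      rw [sub_eq_add_neg]
      apply ffp_le_ord_add z (by rw [heq]) (by rw [ffp_ord_neg, ffp_ord_algebraMap])
      rw [← sub_eq_add_neg]
      exact hne
    omega

/-- **Places with an integral value of `g` stay away from a pole of `ḡ` of the right order.** -/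
theorem ord_sub_const_eq_zero_of_pole (hr : IsPlaceReductionAlong A π N r) (G : IntFun A π N)
    (Pinf : Place L (laurentBaseChange L (modularFunctionFieldFull N)))
    (hpole : Pinf.ord G.toL < 0) (hQ : (r Pinf).ord G.tok = Pinf.ord G.toL)
    (hother : ∀ P, P ≠ Pinf → P.ord G.toL < 0 → r P ≠ r Pinf)
    (c : A) (z : Place L (laurentBaseChange L (modularFunctionFieldFull N)))
    (hz : r z = r Pinf) (hzP : z ≠ Pinf) :
    z.ord (G.toL - algebraMap L _ (c : L)) = 0 := by
  have hGk : G.tok ≠ 0 := by
    intro h0
    rw [h0, Place.ord_zero] at hQ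
    omega
  have hGL : G.toL ≠ 0 := G.toL_ne_zero_of_tok hGk
  set Y : IntFun A π N := G.sub (IntFun.const c) with hYdef
  have hYL : Y.toL = G.toL - algebraMap L _ (c : L) := by
    rw [hYdef, IntFun.toL_sub, IntFun.toL_const]
  have hYk : Y.tok = G.tok - algebraMap k _ (π c) := by
    rw [hYdef, IntFun.tok_sub, IntFun.tok_const]
  -- pole orders are not changed by subtracting a constant
  have hpoleL : ∀ P : Place L (laurentBaseChange L (modularFunctionFieldFull N)),
      P.ord G.toL < 0 → P.ord Y.toL = P.ord G.toL := by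
    intro P hP
    rw [hYL, sub_eq_add_neg]
    apply ffp_ord_add_eq_of_lt P hGL
    rw [ffp_ord_neg, ffp_ord_algebraMap]
    exact hP
  have hQneg : (r Pinf).ord G.tok < 0 := by rw [hQ]; exact hpole
  have hpolek : (r Pinf).ord Y.tok = (r Pinf).ord G.tok := by
    rw [hYk, sub_eq_add_neg]
    apply ffp_ord_add_eq_of_lt (r Pinf) hGk
    rw [ffp_ord_neg, ffp_ord_algebraMap]
    exact hQneg
  have hYk0 : Y.tok ≠ 0 := by
    intro h0
    rw [h0, Place.ord_zero] at hpolek
    omega
  have hYL0 : Y.toL ≠ 0 := Y.toL_ne_zero_of_tok hYk0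
  obtain ⟨D, hD, -⟩ := HasPrincipalDivisors.exists_divisor (K := L) Y.toL hYL0
  have hpush := push_ord hr Y hYk0 D hD (r Pinf)
  -- remove the contribution of `Pinf`
  set E : Divisor L (laurentBaseChange L (modularFunctionFieldFull N)) :=
    D - Finsupp.single Pinf (D Pinf) with hEdef
  have hE0 : Finsupp.mapDomain r E (r Pinf) = 0 := by
    rw [hEdef, Finsupp.mapDomain_sub, Finsupp.sub_apply, Finsupp.mapDomain_single,
      Finsupp.single_eq_same, hpush, hD, hpoleL Pinf hpole, hpolek, hQ, sub_self]
  have hEnn : ∀ P, r P = r Pinf → 0 ≤ E P := by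
    intro P hP
    rcases eq_or_ne P Pinf with rfl | hne
    · rw [hEdef, Finsupp.sub_apply, Finsupp.single_eq_same, sub_self]
    · rw [hEdef, Finsupp.sub_apply, Finsupp.single_eq_of_ne hne, sub_zero, hD]
      by_contra hneg
      push Not at hneg
      -- a pole of `g - c` is a pole of `g`
      have hPG : P.ord G.toL < 0 := by
        by_contra hnn
        push Not at hnn
        have h1 : 0 ≤ P.ord Y.toL := by
          rw [hYL, sub_eq_add_neg]
          apply ffp_le_ord_add P hnn (by rw [ffp_ord_neg, ffp_ord_algebraMap])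
          rw [← sub_eq_add_neg, ← hYL]
          exact hYL0
        omega
      exact hother P hne hPG hP
  have hEz := eq_zero_of_mapDomain_eq_zero r E (r Pinf) hEnn hE0 z hz
  rw [hEdef, Finsupp.sub_apply, Finsupp.single_eq_of_ne hzP, sub_zero, hD, hYL] at hEz
  exact hEz

end Reduction

end Fermat.Agent.MAZ.RedFibre34
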