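/-
Programme MAZ (S15), brick F-D3 (helper34), file 2: **the fibre of a place reduction over a
non-integral `j`-invariant, level `p`** (function-field argument, no Tate curve).

`L ⊇ ℚ` a field, `A ⊂ L` a valuation ring, `π : A → k` a ring homomorphism killing the nonunits,
`r` a place reduction of level `p` (`hr : IsPlaceReductionAlong A π p r`), `j = j(q)`,
`j_p = j(q^p)`.  `P∞`, `P0` the two cusps of `X₀(p)` over `L`, with the hypotheses `CuspHyp`:
orders of `j`, `j_p` at `P∞` (`-1`, `-p`) and `P0` (`-p`, `-1`), no other poles, the pole orders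
of `j̄_p` at `r P∞` and of `j̄` at `r P0` are still `p`, and `r P∞ ≠ r P0`.

For a place `x` with `j(x) = a ∉ A` and `j_p(x) = b` (`IsVal x j a`, `IsVal x j_p b`):
* `red_fibre`       : `r x = r P∞ ∨ r x = r P0`;
* `red_eq_zero_of`  : `b = c * a ^ p` with `π c = 0`  ⟹ `r x = r P0`;
* `red_eq_inf_of`   : `a = c * b ^ p` with `π c = 0`  ⟹ `r x = r P∞`;
* `red_eq_inf_of_valuation`  : `v_A(b) = v_A(a) ^ p`  ⟹ `r x = r P∞`   (`j_p(x) ≈ j(x)^p`);
* `red_eq_zero_of_valuation` : `v_A(b) ^ p = v_A(a)`  ⟹ `r x = r P0`   (`j_p(x)^p ≈ j(x)`).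
-/
import Mathlib
import Fermat.Agent.MAZ.RedFibre34.Push
import Fermat.Agent.MW.Bridge34.PlaceHom

set_option autoImplicit false
set_option linter.unusedSectionVars false

noncomputable section

open HahnSeries IntermediateField AlgebraicCurve ModularCurve
open Fermat.Agent.X0.FF Fermat.Agent.MW.Bridge34

namespace Fermat.Agent.MAZ.RedFibre34

/-! ### The `q`-series `1/j` over any ring -/

section Series

/-- The inverse of the numerator `jNum = q·j` of `j`. -/
def jNumInv : PowerSeries ℤ := PowerSeries.invOfUnit jNum 1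

theorem jNum_mul_jNumInv : jNum * jNumInv = 1 :=
  PowerSeries.mul_invOfUnit jNum 1 (by rw [constantCoeff_jNum]; rfl)

variable (R : Type*) [CommRing R]

/-- `1/j` as a `q`-series over `R`. -/
def jInvC : LaurentSeries R :=
  HahnSeries.single (1 : ℤ) 1 * HahnSeries.ofPowerSeries ℤ R (jNumInv.map (Int.castRingHom R))

theorem jqModC_mul_jInvC : jqModC R * jInvC R = 1 := by
  rw [jqModC, jInvC, mul_mul_mul_comm, HahnSeries.single_mul_single, ← map_mul, ← map_mul,
    jNum_mul_jNumInv, map_one, map_one, mul_one, mul_one]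
  rfl

variable {R} in
theorem coeffMap_jInvC {S : Type*} [CommRing S] (f : R →+* S) :
    coeffMap f (jInvC R) = jInvC S := by
  rw [jInvC, map_mul, coeffMap_single, map_one, coeffMap_ofPowerSeries,
    ← RingHom.comp_apply (PowerSeries.map f) (PowerSeries.map (Int.castRingHom R)),
    ← PowerSeries.map_comp, RingHom.ext_int (f.comp (Int.castRingHom R)) (Int.castRingHom S)]
  rfl

/-- `1/j(q^n)` as a `q`-series over `R`. -/
def jInvNC (n : ℕ) [NeZero n] : LaurentSeries R := qExpand R n (jInvC R)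

theorem jqNModC_mul_jInvNC (n : ℕ) [NeZero n] : jqNModC R n * jInvNC R n = 1 := by
  rw [jqNModC, jInvNC, ← map_mul, jqModC_mul_jInvC, map_one]

variable {R} in
theorem coeffMap_jInvNC {S : Type*} [CommRing S] (f : R →+* S) (n : ℕ) [NeZero n] :
    coeffMap f (jInvNC R n) = jInvNC S n := by
  rw [jInvNC, coeffMap_qExpand, coeffMap_jInvC, jInvNC]

end Series

/-! ### The functions `j`, `j_p` and their inverses as integral functions -/

section Functions

variable (L : Type*) [Field L] [Algebra ℚ L] (k : Type*) [Field k] (p : ℕ) [NeZero p]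

theorem jqModC_mem_base : jqModC L ∈ laurentBaseChange L (modularFunctionFieldFull p) := by
  have h : coeffEmb L jq = jqModC L := by
    rw [← jqModC_rat]
    exact coeffMap_jqModC (algebraMap ℚ L)
  rw [← h]
  apply coeffEmb_mem_laurentBaseChange
  have := jqd_mem_full p (one_dvd p)
  rwa [qExpand_one_apply] at this

theorem jqNModC_mem_base : jqNModC L p ∈ laurentBaseChange L (modularFunctionFieldFull p) := by
  have h : coeffEmb L (qExpand ℚ p jq) = jqNModC L p := by
    rw [← jqModC_rat]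
    show coeffMap (algebraMap ℚ L) (qExpand ℚ p (jqModC ℚ)) = _
    rw [coeffMap_qExpand, coeffMap_jqModC, jqNModC]
  rw [← h]
  exact coeffEmb_mem_laurentBaseChange L (jqd_mem_full p dvd_rfl)

/-- `j` in the function field over `L`. -/
def jL : laurentBaseChange L (modularFunctionFieldFull p) := ⟨jqModC L, jqModC_mem_base L p⟩

/-- `j_p = j(q^p)` in the function field over `L`. -/
def jpL : laurentBaseChange L (modularFunctionFieldFull p) := ⟨jqNModC L p, jqNModC_mem_base L p⟩

/-- `j̄` in the function field over `k`. -/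
def jk : modularFunctionFieldFullC k p := ⟨jqModC k, jqModC_mem_full k p⟩

/-- `j̄_p` in the function field over `k`. -/
def jpk : modularFunctionFieldFullC k p := ⟨jqNModC k p, jqModCd_mem_full k p dvd_rfl⟩

theorem jL_ne_zero : jL L p ≠ 0 := fun h =>
  jqModC_ne_zero_of_nontrivial L (congrArg Subtype.val h)

theorem jk_ne_zero : jk k p ≠ 0 := fun h =>
  jqModC_ne_zero_of_nontrivial k (congrArg Subtype.val h)

theorem jqNModC_ne_zero (R : Type*) [CommRing R] [Nontrivial R] : jqNModC R p ≠ 0 := by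
  intro h
  have h1 := jqNModC_mul_jInvNC R p
  rw [h, zero_mul] at h1
  exact zero_ne_one h1

theorem jpL_ne_zero : jpL L p ≠ 0 := fun h => jqNModC_ne_zero p L (congrArg Subtype.val h)

theorem jpk_ne_zero : jpk k p ≠ 0 := fun h => jqNModC_ne_zero p k (congrArg Subtype.val h)

variable {L k} (A : ValuationSubring L) (π : A →+* k)

/-- `j` as an integral function. -/
def Jf : IntFun A π p where
  y := jqModC A
  memL := by rw [coeffMap_jqModC]; exact jqModC_mem_base L p
  memk := by rw [coeffMap_jqModC]; exact jqModC_mem_full k p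

/-- `j_p` as an integral function. -/
def Jpf : IntFun A π p where
  y := jqNModC A p
  memL := by rw [coeffMap_jqNModC]; exact jqNModC_mem_base L p
  memk := by rw [coeffMap_jqNModC]; exact jqModCd_mem_full k p dvd_rfl

/-- `1/j` as an integral function. -/
def Uf : IntFun A π p where
  y := jInvC A
  memL := by
    rw [coeffMap_jInvC]
    have h : jInvC L = (jqModC L)⁻¹ := eq_inv_of_mul_eq_one_right (jqModC_mul_jInvC L)
    rw [h]
    exact inv_mem (jqModC_mem_base L p)
  memk := by
    rw [coeffMap_jInvC]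
    have h : jInvC k = (jqModC k)⁻¹ := eq_inv_of_mul_eq_one_right (jqModC_mul_jInvC k)
    rw [h]
    exact inv_mem (jqModC_mem_full k p)

/-- `1/j_p` as an integral function. -/
def Upf : IntFun A π p where
  y := jInvNC A p
  memL := by
    rw [coeffMap_jInvNC]
    have h : jInvNC L p = (jqNModC L p)⁻¹ := eq_inv_of_mul_eq_one_right (jqNModC_mul_jInvNC L p)
    rw [h]
    exact inv_mem (jqNModC_mem_base L p)
  memk := by
    rw [coeffMap_jInvNC]
    have h : jInvNC k p = (jqNModC k p)⁻¹ := eq_inv_of_mul_eq_one_right (jqNModC_mul_jInvNC k p)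
    rw [h]
    exact inv_mem (jqModCd_mem_full k p dvd_rfl)

theorem Jf_toL : (Jf p A π).toL = jL L p := Subtype.ext (coeffMap_jqModC _)

theorem Jf_tok : (Jf p A π).tok = jk k p := Subtype.ext (coeffMap_jqModC _)

theorem Jpf_toL : (Jpf p A π).toL = jpL L p := Subtype.ext (coeffMap_jqNModC _ p)

theorem Jpf_tok : (Jpf p A π).tok = jpk k p := Subtype.ext (coeffMap_jqNModC _ p)

theorem Uf_toL : (Uf p A π).toL = (jL L p)⁻¹ := by
  apply eq_inv_of_mul_eq_one_right
  apply Subtype.ext
  show jqModC L * coeffMap A.subtype (jInvC A) = 1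
  rw [coeffMap_jInvC, jqModC_mul_jInvC]

theorem Uf_tok : (Uf p A π).tok = (jk k p)⁻¹ := by
  apply eq_inv_of_mul_eq_one_right
  apply Subtype.ext
  show jqModC k * coeffMap π (jInvC A) = 1
  rw [coeffMap_jInvC, jqModC_mul_jInvC]

theorem Upf_toL : (Upf p A π).toL = (jpL L p)⁻¹ := by
  apply eq_inv_of_mul_eq_one_right
  apply Subtype.ext
  show jqNModC L p * coeffMap A.subtype (jInvNC A p) = 1
  rw [coeffMap_jInvNC, jqNModC_mul_jInvNC]

theorem Upf_tok : (Upf p A π).tok = (jpk k p)⁻¹ := by
  apply eq_inv_of_mul_eq_one_right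
  apply Subtype.ext
  show jqNModC k p * coeffMap π (jInvNC A p) = 1
  rw [coeffMap_jInvNC, jqNModC_mul_jInvNC]

end Functions

/-! ### The fibre over a non-integral `j`-invariant -/

section Fibre

variable {L : Type*} [Field L] [Algebra ℚ L] {A : ValuationSubring L} {k : Type*} [Field k]
  {π : A →+* k} {p : ℕ} [NeZero p]
  {r : Place L (laurentBaseChange L (modularFunctionFieldFull p)) →
    Place k (modularFunctionFieldFullC k p)}

/-- The hypotheses on the two cusps `P∞`, `P0` of `X₀(p)` and their reductions. -/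
structure CuspHyp (r : Place L (laurentBaseChange L (modularFunctionFieldFull p)) →
    Place k (modularFunctionFieldFullC k p))
    (Pinf P0 : Place L (laurentBaseChange L (modularFunctionFieldFull p))) : Prop where
  ord_inf_j : Pinf.ord (jL L p) = -1
  ord_inf_jp : Pinf.ord (jpL L p) = -(p : ℤ)
  ord_zero_j : P0.ord (jL L p) = -(p : ℤ)
  ord_zero_jp : P0.ord (jpL L p) = -1
  poles_j : ∀ P : Place L (laurentBaseChange L (modularFunctionFieldFull p)),
    P.ord (jL L p) < 0 → P = Pinf ∨ P = P0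
  poles_jp : ∀ P : Place L (laurentBaseChange L (modularFunctionFieldFull p)),
    P.ord (jpL L p) < 0 → P = Pinf ∨ P = P0
  red_inf_jp : (r Pinf).ord (jpk k p) = -(p : ℤ)
  red_zero_j : (r P0).ord (jk k p) = -(p : ℤ)
  red_ne : r Pinf ≠ r P0

variable [HasPrincipalDivisors L (laurentBaseChange L (modularFunctionFieldFull p))]
  {Pinf P0 : Place L (laurentBaseChange L (modularFunctionFieldFull p))}

theorem ppos : (0 : ℤ) < (p : ℤ) := by exact_mod_cast Nat.pos_of_ne_zero (NeZero.ne p)

/-- A non-integral element has an inverse in `A` killed by `π`. -/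
theorem exists_inv_mem (hπ : ∀ c : A, ¬ IsUnit c → π c = 0) {a : L} (ha : a ∉ A) :
    ∃ c : A, (c : L) = a⁻¹ ∧ π c = 0 := by
  have hinv : a⁻¹ ∈ A := (A.mem_or_inv_mem a).resolve_left ha
  refine ⟨⟨a⁻¹, hinv⟩, rfl, hπ _ ?_⟩
  intro hu
  apply ha
  have h1 : ((hu.unit⁻¹ : Aˣ) : L) = a := by
    have h2 : ((hu.unit : A) : L) * ((hu.unit⁻¹ : Aˣ) : A) = 1 := by
      rw [← Subring.coe_mul, Units.mul_inv]
      rfl
    have h3 : ((hu.unit : A) : L) = a⁻¹ := rfl
    rw [h3] at h2
    have ha0 : a ≠ 0 := fun h => ha (h ▸ A.zero_mem)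
    exact ((inv_mul_eq_one₀ ha0).mp h2).symm
  rw [← h1]
  exact ((hu.unit⁻¹ : Aˣ) : A).2

/-- **The fibre over a non-integral `j`-invariant consists of places reducing to a cusp.** -/
theorem red_fibre (hr : IsPlaceReductionAlong A π p r) (hπ : ∀ c : A, ¬ IsUnit c → π c = 0)
    (H : CuspHyp r Pinf P0) (x : Place L (laurentBaseChange L (modularFunctionFieldFull p)))
    {a : L} (ha : a ∉ A) (hxa : IsVal x (jL L p) a) : r x = r Pinf ∨ r x = r P0 := by
  have ha0 : a ≠ 0 := fun h => ha (h ▸ A.zero_mem)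
  obtain ⟨c, hca, hc⟩ := exists_inv_mem hπ ha
  have hUk : (Uf p A π).tok ≠ 0 := by
    rw [Uf_tok]
    exact inv_ne_zero (jk_ne_zero k p)
  have hval : IsVal x (Uf p A π).toL (c : L) := by
    rw [Uf_toL, hca]
    exact hxa.inv ha0
  have hne : (Uf p A π).toL - algebraMap L _ (c : L) ≠ 0 := by
    intro h0
    have h1 : Pinf.ord (Uf p A π).toL = 0 := by
      rw [sub_eq_zero.mp h0, ffp_ord_algebraMap]
    rw [Uf_toL, Place.ord_inv, H.ord_inf_j] at h1
    omega
  have hx : 0 < x.ord ((Uf p A π).toL - algebraMap L _ (c : L)) := by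
    rcases isVal_iff_ord.mp hval with h | h
    · exact absurd (sub_eq_zero.mpr h) hne
    · exact h
  obtain ⟨z, hz, hzpos⟩ := exists_zero_of_zero_sub_const hr (Uf p A π) hUk c hc x hne hx
  rw [Uf_toL, Place.ord_inv] at hzpos
  rcases H.poles_j z (by omega) with rfl | rfl
  · exact Or.inl hz.symm
  · exact Or.inr hz.symm

/-- **`j_p(x) / j(x)^p ≡ 0` ⟹ the place reduces to the cusp `0`.** -/
theorem red_eq_zero_of (hp : 2 ≤ p) (hr : IsPlaceReductionAlong A π p r)
    (hπ : ∀ c : A, ¬ IsUnit c → π c = 0) (H : CuspHyp r Pinf P0)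
    (x : Place L (laurentBaseChange L (modularFunctionFieldFull p)))
    {a b : L} (ha : a ∉ A) (hxa : IsVal x (jL L p) a) (hxb : IsVal x (jpL L p) b)
    (c : A) (hc : π c = 0) (hbc : b = (c : L) * a ^ p) : r x = r P0 := by
  have ha0 : a ≠ 0 := fun h => ha (h ▸ A.zero_mem)
  rcases red_fibre hr hπ H x ha hxa with hinf | h0
  swap
  · exact h0
  exfalso
  set F : IntFun A π p := (Jpf p A π).mul ((Uf p A π).pow p) with hF
  have hFL : F.toL = jpL L p * ((jL L p)⁻¹) ^ p := by
    rw [hF, IntFun.toL_mul, IntFun.toL_pow, Jpf_toL, Uf_toL]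
  have hFk : F.tok ≠ 0 := by
    rw [hF, IntFun.tok_mul, IntFun.tok_pow, Jpf_tok, Uf_tok]
    exact mul_ne_zero (jpk_ne_zero k p) (pow_ne_zero _ (inv_ne_zero (jk_ne_zero k p)))
  have hordF : ∀ P : Place L (laurentBaseChange L (modularFunctionFieldFull p)),
      P.ord F.toL = P.ord (jpL L p) - p * P.ord (jL L p) := by
    intro P
    rw [hFL, P.ord_mul (jpL_ne_zero L p) (pow_ne_zero _ (inv_ne_zero (jL_ne_zero L p))),
      ← zpow_natCast, P.ord_zpow, P.ord_inv]
    ring
  have hval : IsVal x F.toL (c : L) := by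
    have h1 := hxb.mul ((hxa.inv ha0).pow p)
    rw [← hFL] at h1
    have h2 : b * a⁻¹ ^ p = (c : L) := by
      rw [hbc, inv_pow, mul_assoc, mul_inv_cancel₀ (pow_ne_zero _ ha0), mul_one]
    rwa [h2] at h1
  have hp2 : (2 : ℤ) ≤ (p : ℤ) := by exact_mod_cast hp
  have hne : F.toL - algebraMap L _ (c : L) ≠ 0 := by
    intro h0
    have h1 : P0.ord F.toL = 0 := by
      rw [sub_eq_zero.mp h0, ffp_ord_algebraMap]
    rw [hordF, H.ord_zero_jp, H.ord_zero_j] at h1
    nlinarith
  have hx : 0 < x.ord (F.toL - algebraMap L _ (c : L)) := by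
    rcases isVal_iff_ord.mp hval with h | h
    · exact absurd (sub_eq_zero.mpr h) hne
    · exact h
  obtain ⟨z, hz, hzpos⟩ := exists_zero_of_zero_sub_const hr F hFk c hc x hne hx
  rw [hordF] at hzpos
  by_cases hzj : z.ord (jL L p) < 0
  · rcases H.poles_j z hzj with rfl | rfl
    · rw [H.ord_inf_jp, H.ord_inf_j] at hzpos
      omega
    · exact H.red_ne (hinf.symm.trans hz.symm)
  · push Not at hzj
    have hzjp : 0 < z.ord (jpL L p) := by nlinarith [ppos (p := p)]
    have hzne : z ≠ Pinf := by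
      rintro rfl
      rw [H.ord_inf_jp] at hzjp
      have := ppos (p := p)
      omega
    have h3 := ord_sub_const_eq_zero_of_pole hr (Jpf p A π) Pinf
      (by rw [Jpf_toL, H.ord_inf_jp]; have := ppos (p := p); omega)
      (by rw [Jpf_toL, Jpf_tok, H.red_inf_jp, H.ord_inf_jp])
      (by
        intro P hP hPpole
        rw [Jpf_toL] at hPpole
        rcases H.poles_jp P hPpole with rfl | rfl
        · exact absurd rfl hP
        · exact H.red_ne.symm)
      0 z (hz.trans hinf) hzne
    rw [Jpf_toL, ZeroMemClass.coe_zero, map_zero, sub_zero] at h3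
    omega

/-- **`j(x) / j_p(x)^p ≡ 0` ⟹ the place reduces to the cusp `∞`.** -/
theorem red_eq_inf_of (hp : 2 ≤ p) (hr : IsPlaceReductionAlong A π p r)
    (hπ : ∀ c : A, ¬ IsUnit c → π c = 0) (H : CuspHyp r Pinf P0)
    (x : Place L (laurentBaseChange L (modularFunctionFieldFull p)))
    {a b : L} (ha : a ∉ A) (hxa : IsVal x (jL L p) a) (hxb : IsVal x (jpL L p) b)
    (c : A) (hc : π c = 0) (hac : a = (c : L) * b ^ p) : r x = r Pinf := by
  have ha0 : a ≠ 0 := fun h => ha (h ▸ A.zero_mem)
  have hb0 : b ≠ 0 := by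
    rintro rfl
    rw [zero_pow (NeZero.ne p), mul_zero] at hac
    exact ha0 hac
  rcases red_fibre hr hπ H x ha hxa with hinf | h0
  · exact hinf
  exfalso
  set F : IntFun A π p := (Jf p A π).mul ((Upf p A π).pow p) with hF
  have hFL : F.toL = jL L p * ((jpL L p)⁻¹) ^ p := by
    rw [hF, IntFun.toL_mul, IntFun.toL_pow, Jf_toL, Upf_toL]
  have hFk : F.tok ≠ 0 := by
    rw [hF, IntFun.tok_mul, IntFun.tok_pow, Jf_tok, Upf_tok]
    exact mul_ne_zero (jk_ne_zero k p) (pow_ne_zero _ (inv_ne_zero (jpk_ne_zero k p)))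
  have hordF : ∀ P : Place L (laurentBaseChange L (modularFunctionFieldFull p)),
      P.ord F.toL = P.ord (jL L p) - p * P.ord (jpL L p) := by
    intro P
    rw [hFL, P.ord_mul (jL_ne_zero L p) (pow_ne_zero _ (inv_ne_zero (jpL_ne_zero L p))),
      ← zpow_natCast, P.ord_zpow, P.ord_inv]
    ring
  have hval : IsVal x F.toL (c : L) := by
    have h1 := hxa.mul ((hxb.inv hb0).pow p)
    rw [← hFL] at h1
    have h2 : a * b⁻¹ ^ p = (c : L) := by
      rw [hac, inv_pow, mul_assoc, mul_inv_cancel₀ (pow_ne_zero _ hb0), mul_one]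
    rwa [h2] at h1
  have hp2 : (2 : ℤ) ≤ (p : ℤ) := by exact_mod_cast hp
  have hne : F.toL - algebraMap L _ (c : L) ≠ 0 := by
    intro h0'
    have h1 : Pinf.ord F.toL = 0 := by
      rw [sub_eq_zero.mp h0', ffp_ord_algebraMap]
    rw [hordF, H.ord_inf_jp, H.ord_inf_j] at h1
    nlinarith
  have hx : 0 < x.ord (F.toL - algebraMap L _ (c : L)) := by
    rcases isVal_iff_ord.mp hval with h | h
    · exact absurd (sub_eq_zero.mpr h) hne
    · exact h
  obtain ⟨z, hz, hzpos⟩ := exists_zero_of_zero_sub_const hr F hFk c hc x hne hx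
  rw [hordF] at hzpos
  by_cases hzjp : z.ord (jpL L p) < 0
  · rcases H.poles_jp z hzjp with rfl | rfl
    · exact H.red_ne (hz.trans h0)
    · rw [H.ord_zero_jp, H.ord_zero_j] at hzpos
      omega
  · push Not at hzjp
    have hzj : 0 < z.ord (jL L p) := by nlinarith [ppos (p := p)]
    have hzne : z ≠ P0 := by
      rintro rfl
      rw [H.ord_zero_j] at hzj
      have := ppos (p := p)
      omega
    have h3 := ord_sub_const_eq_zero_of_pole hr (Jf p A π) P0
      (by rw [Jf_toL, H.ord_zero_j]; have := ppos (p := p); omega)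
      (by rw [Jf_toL, Jf_tok, H.red_zero_j, H.ord_zero_j])
      (by
        intro P hP hPpole
        rw [Jf_toL] at hPpole
        rcases H.poles_j P hPpole with rfl | rfl
        · exact H.red_ne
        · exact absurd rfl hP)
      0 z (hz.trans h0) hzne
    rw [Jf_toL, ZeroMemClass.coe_zero, map_zero, sub_zero] at h3
    omega

end Fibre

end Fermat.Agent.MAZ.RedFibre34
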