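/-
Programme MAZ (S15), brick F-D3 (helper34), file 3: **valuation form** of `red_eq_inf_of` /
`red_eq_zero_of` and the specialisation to `IsPlaceReductionModL` (`A ⊂ ℚ̄`, `π` the residue map).

For a place `x` of `ℚ̄·F_p` with `j(x) = a ∉ A`, `j_p(x) = b`:
* `red_eq_inf_of_valuation`  : `v_A(b) = v_A(a) ^ p`  ⟹ `r x = r P∞`;
* `red_eq_zero_of_valuation` : `v_A(b) ^ p = v_A(a)`  ⟹ `r x = r P0`;
* `red_fibre_modL`, `red_eq_inf_modL`, `red_eq_zero_modL`, and, when the dichotomy
  `v_A(b) = v_A(a)^p ∨ v_A(b)^p = v_A(a)` is known, `red_eq_inf_iff_modL`.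
(`A.valuation` is multiplicative: `v_A(b) = v_A(a)^p` is "`ord_A j_p(x) = p · ord_A j(x)`".)
-/
import Mathlib
import Fermat.Agent.MAZ.RedFibre34.Main

set_option autoImplicit false
set_option linter.unusedSectionVars false

noncomputable section

open HahnSeries IntermediateField AlgebraicCurve ModularCurve
open Fermat.Agent.X0.FF Fermat.Agent.MW.Bridge34

namespace Fermat.Agent.MAZ.RedFibre34

section Valuation

variable {L : Type*} [Field L] [Algebra ℚ L] {A : ValuationSubring L} {k : Type*} [Field k]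
  {π : A →+* k} {p : ℕ} [NeZero p]
  {r : Place L (laurentBaseChange L (modularFunctionFieldFull p)) →
    Place k (modularFunctionFieldFullC k p)}
  [HasPrincipalDivisors L (laurentBaseChange L (modularFunctionFieldFull p))]
  {Pinf P0 : Place L (laurentBaseChange L (modularFunctionFieldFull p))}

/-- An element of valuation `< 1` lies in `A` and is killed by `π`. -/
theorem exists_of_valuation_lt_one (hπ : ∀ c : A, ¬ IsUnit c → π c = 0) {z : L}
    (hz : A.valuation z < 1) : ∃ c : A, (c : L) = z ∧ π c = 0 := by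
  have hmem : z ∈ A := (A.valuation_le_one_iff z).mp hz.le
  refine ⟨⟨z, hmem⟩, rfl, hπ _ ?_⟩
  intro hu
  have h1 := (A.valuation_eq_one_iff ⟨z, hmem⟩).mp hu
  exact absurd h1 hz.ne

/-- In a linearly ordered group with zero: `1 < V`, `2 ≤ p` ⟹ `V / (V ^ p) ^ p < 1`. -/
theorem div_pow_pow_lt_one {Γ : Type*} [LinearOrderedCommGroupWithZero Γ] {V : Γ} (hV : 1 < V)
    {p : ℕ} (hp : 2 ≤ p) : V / (V ^ p) ^ p < 1 := by
  have hV0 : 0 < V := lt_trans zero_lt_one hV
  have hpp : 1 < p * p := by nlinarith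
  rw [← pow_mul, div_lt_one₀ (pow_pos hV0 _)]
  exact lt_self_pow₀ hV hpp

theorem one_lt_valuation_of_notMem {a : L} (ha : a ∉ A) : 1 < A.valuation a := by
  by_contra h
  push Not at h
  exact ha ((A.valuation_le_one_iff a).mp h)

/-- **`v_A(j_p(x)) = v_A(j(x))^p` ⟹ the place reduces to the cusp `∞`.** -/
theorem red_eq_inf_of_valuation (hp : 2 ≤ p) (hr : IsPlaceReductionAlong A π p r)
    (hπ : ∀ c : A, ¬ IsUnit c → π c = 0) (H : CuspHyp r Pinf P0)
    (x : Place L (laurentBaseChange L (modularFunctionFieldFull p)))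
    {a b : L} (ha : a ∉ A) (hxa : IsVal x (jL L p) a) (hxb : IsVal x (jpL L p) b)
    (hval : A.valuation b = A.valuation a ^ p) : r x = r Pinf := by
  have hV := one_lt_valuation_of_notMem ha
  have hb0 : b ≠ 0 := by
    intro h
    rw [h, map_zero] at hval
    exact (pow_ne_zero p (ne_of_gt (lt_trans zero_lt_one hV))) hval.symm
  have hz : A.valuation (a / b ^ p) < 1 := by
    rw [map_div₀, map_pow, hval]
    exact div_pow_pow_lt_one hV hp
  obtain ⟨c, hcz, hc⟩ := exists_of_valuation_lt_one hπ hz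
  refine red_eq_inf_of hp hr hπ H x ha hxa hxb c hc ?_
  rw [hcz, div_mul_cancel₀ _ (pow_ne_zero p hb0)]

/-- **`v_A(j_p(x))^p = v_A(j(x))` ⟹ the place reduces to the cusp `0`.** -/
theorem red_eq_zero_of_valuation (hp : 2 ≤ p) (hr : IsPlaceReductionAlong A π p r)
    (hπ : ∀ c : A, ¬ IsUnit c → π c = 0) (H : CuspHyp r Pinf P0)
    (x : Place L (laurentBaseChange L (modularFunctionFieldFull p)))
    {a b : L} (ha : a ∉ A) (hxa : IsVal x (jL L p) a) (hxb : IsVal x (jpL L p) b)
    (hval : A.valuation b ^ p = A.valuation a) : r x = r P0 := by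
  have hV := one_lt_valuation_of_notMem ha
  have ha0 : a ≠ 0 := fun h => ha (h ▸ A.zero_mem)
  have hW : 1 < A.valuation b := by
    by_contra h
    push Not at h
    have h1 : A.valuation b ^ p ≤ 1 := pow_le_one₀ zero_le h
    rw [hval] at h1
    exact absurd hV (not_lt.mpr h1)
  have hz : A.valuation (b / a ^ p) < 1 := by
    rw [map_div₀, map_pow, ← hval]
    exact div_pow_pow_lt_one hW hp
  obtain ⟨c, hcz, hc⟩ := exists_of_valuation_lt_one hπ hz
  refine red_eq_zero_of hp hr hπ H x ha hxa hxb c hc ?_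
  rw [hcz, div_mul_cancel₀ _ (pow_ne_zero p ha0)]

end Valuation

/-! ### Specialisation to `IsPlaceReductionModL` -/

section ModL

set_option synthInstance.maxHeartbeats 400000

variable (A : ValuationSubring (AlgebraicClosure ℚ)) {p : ℕ} [NeZero p]
  {r : Place (AlgebraicClosure ℚ) (modularFunctionFieldBar p) →
    Place (IsLocalRing.ResidueField A)
      (modularFunctionFieldFullC (IsLocalRing.ResidueField A) p)}
  [HasPrincipalDivisors (AlgebraicClosure ℚ) (modularFunctionFieldBar p)]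
  {Pinf P0 : Place (AlgebraicClosure ℚ) (modularFunctionFieldBar p)}

theorem residue_eq_zero_of_not_isUnit (c : A) (h : ¬ IsUnit c) : IsLocalRing.residue A c = 0 :=
  (IsLocalRing.residue_eq_zero_iff c).mpr ((IsLocalRing.mem_maximalIdeal c).mpr h)

/-- **(D3) `red_fibre`**: a place over a `j`-invariant that is not `A`-integral reduces to one of
the two cusps. -/
theorem red_fibre_modL (hr : IsPlaceReductionModL A p r) (H : CuspHyp r Pinf P0)
    (x : Place (AlgebraicClosure ℚ) (modularFunctionFieldBar p))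
    {a : AlgebraicClosure ℚ} (ha : a ∉ A) (hxa : IsVal x (jL (AlgebraicClosure ℚ) p) a) :
    r x = r Pinf ∨ r x = r P0 :=
  red_fibre hr (residue_eq_zero_of_not_isUnit A) H x ha hxa

/-- **(D3) `red_eq_inf`**: `v_A(j_p(x)) = v_A(j(x))^p` ⟹ `x` reduces to the cusp `∞`. -/
theorem red_eq_inf_modL (hp : 2 ≤ p) (hr : IsPlaceReductionModL A p r) (H : CuspHyp r Pinf P0)
    (x : Place (AlgebraicClosure ℚ) (modularFunctionFieldBar p))
    {a b : AlgebraicClosure ℚ} (ha : a ∉ A) (hxa : IsVal x (jL (AlgebraicClosure ℚ) p) a)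
    (hxb : IsVal x (jpL (AlgebraicClosure ℚ) p) b)
    (hval : A.valuation b = A.valuation a ^ p) : r x = r Pinf :=
  red_eq_inf_of_valuation hp hr (residue_eq_zero_of_not_isUnit A) H x ha hxa hxb hval

/-- **(D3) `red_eq_zero`**: `v_A(j_p(x))^p = v_A(j(x))` ⟹ `x` reduces to the cusp `0`. -/
theorem red_eq_zero_modL (hp : 2 ≤ p) (hr : IsPlaceReductionModL A p r) (H : CuspHyp r Pinf P0)
    (x : Place (AlgebraicClosure ℚ) (modularFunctionFieldBar p))
    {a b : AlgebraicClosure ℚ} (ha : a ∉ A) (hxa : IsVal x (jL (AlgebraicClosure ℚ) p) a)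
    (hxb : IsVal x (jpL (AlgebraicClosure ℚ) p) b)
    (hval : A.valuation b ^ p = A.valuation a) : r x = r P0 :=
  red_eq_zero_of_valuation hp hr (residue_eq_zero_of_not_isUnit A) H x ha hxa hxb hval

/-- **(D3) `red_eq_inf_iff`**, under the dichotomy supplied by the local elliptic input (D4). -/
theorem red_eq_inf_iff_modL (hp : 2 ≤ p) (hr : IsPlaceReductionModL A p r)
    (H : CuspHyp r Pinf P0) (x : Place (AlgebraicClosure ℚ) (modularFunctionFieldBar p))
    {a b : AlgebraicClosure ℚ} (ha : a ∉ A) (hxa : IsVal x (jL (AlgebraicClosure ℚ) p) a)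
    (hxb : IsVal x (jpL (AlgebraicClosure ℚ) p) b)
    (hdich : A.valuation b = A.valuation a ^ p ∨ A.valuation b ^ p = A.valuation a) :
    r x = r Pinf ↔ A.valuation b = A.valuation a ^ p := by
  constructor
  · intro hx
    rcases hdich with h | h
    · exact h
    · exact absurd (hx.symm.trans (red_eq_zero_modL A hp hr H x ha hxa hxb h)) H.red_ne
  · exact red_eq_inf_modL A hp hr H x ha hxa hxb

end ModL

end Fermat.Agent.MAZ.RedFibre34
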