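/-
Programme MAZ (S15), brick F-D3 (helper34), file 4: **the characteristic-zero half of `CuspHyp`
for the two cusps `cuspInf p`, `cuspZero p` of `X₀(p)`** (`p` prime).

* `jL_eq_jF`, `jpL_eq_jdF` : the functions `j`, `j_p` of `RedFibre34.Main` are `X0.jF p`,
  `X0.jdF p p _`;
* `ord_cuspInf_jF = -1`, `ord_cuspZero_jF = -p`, `ord_cuspInf_jdF = -p`, `ord_cuspZero_jdF = -1`
  (EXACT orders, from `RED.CUSP.CuspExact16.neg_ord_jF_eq` and `HeckeCusp89.CuspPrime`);
* `poles_jF`, `poles_jdF` : `j` and `j_p` have no other poles;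
* `cuspHyp_of_red` : `CuspHyp r (cuspInf p) (cuspZero p)` from the three facts on the reduced
  cusps (`red_cusp`: exact pole orders of `j̄_p` at `r ∞`, of `j̄` at `r 0`, and `r ∞ ≠ r 0`);
* `red_fibre_cusp`, `red_eq_inf_cusp`, `red_eq_zero_cusp`, `red_eq_inf_iff_cusp` : (D3) for the
  actual cusps.
-/
import Mathlib
import Fermat.Agent.MAZ.RedFibre34.Val
import Fermat.Agent.MAZ.Ogg24.Cusps
import Fermat.Agent.ES.P36.JDict26

set_option autoImplicit false
set_option linter.unusedSectionVars false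

noncomputable section

open HahnSeries IntermediateField AlgebraicCurve ModularCurve
open scoped MatrixGroups

namespace Fermat.Agent.MAZ.RedFibre34

open Fermat.Agent.X0 Fermat.Agent.MW.Bridge34 Fermat.Agent.MAZ.HeckeCusp89
open Fermat.Agent.RED.CUSP.CuspExact16 Fermat.Agent.ES.P36.CuspWidth3

section CharZero

variable (p : ℕ) [NeZero p]

theorem jL_eq_jF : jL Kbar p = jF p := by
  apply Subtype.ext
  rw [coe_jF, jqK_eq_jqModC]
  rfl

theorem jpL_eq_jdF : jpL Kbar p = jdF p p (dvd_refl p) := by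
  apply Subtype.ext
  rw [Fermat.Agent.X0.FracR.coe_jdF]
  show jqNModC Kbar p = coeffEmb Kbar (qExpand ℚ p jq)
  unfold coeffEmb
  rw [ModularCurve.coeffMap_qExpand, jqNModC]
  congr 1
  rw [← jqK_eq_jqModC]
  rfl

/-- `ord_∞ j = -1`. -/
theorem ord_cuspInf_jF : (cuspInf p).ord (jF p) = -1 := by
  have h := neg_ord_jF_eq p 1
  have hW : cuspW p 1 = 1 := (cuspW_eq_one_iff p 1).mpr (by simp)
  rw [Fermat.Agent.MAZ.Ogg24.placeOf_one, hW] at h
  have h' : -(cuspInf p).ord (jF p) = 1 := by exact_mod_cast h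
  linarith

/-- `ord_0 j = -p`. -/
theorem ord_cuspZero_jF : (cuspZero p).ord (jF p) = -(p : ℤ) := by
  have h := neg_ord_jF_eq p ModularGroup.S⁻¹
  have hW : cuspW p ModularGroup.S⁻¹ = p :=
    cuspW_eq_self_of_isCoprime p _ (by
      rw [Fermat.Agent.MAZ.Ogg24.S_inv_entry]; exact isCoprime_one_right.neg_right)
  rw [Fermat.Agent.MAZ.Ogg24.placeOf_S_inv, hW] at h
  linarith

/-- `ord_∞ j_p = -p`. -/
theorem ord_cuspInf_jdF : (cuspInf p).ord (jdF p p (dvd_refl p)) = -(p : ℤ) := by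
  rw [cuspInf_ord_jp, ord_cuspInf_jF]
  ring

/-- `ord_0 j_p = -1`. -/
theorem ord_cuspZero_jdF : (cuspZero p).ord (jdF p p (dvd_refl p)) = -1 := by
  have h := cuspZero_ord_jp p
  rw [ord_cuspZero_jF] at h
  have hp0 : (p : ℤ) ≠ 0 := by exact_mod_cast NeZero.ne p
  apply mul_left_cancel₀ hp0
  rw [h]
  ring

/-- The poles of `j` are the two cusps. -/
theorem poles_jF (hp : p.Prime) (v : Place Kbar (FF p)) (hv : v.ord (jF p) < 0) :
    v = cuspInf p ∨ v = cuspZero p :=
  eq_cuspInf_or_eq_cuspZero p hp v hv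

/-- The poles of `j_p` are the two cusps. -/
theorem poles_jdF (hp : p.Prime) (v : Place Kbar (FF p))
    (hv : v.ord (jdF p p (dvd_refl p)) < 0) : v = cuspInf p ∨ v = cuspZero p := by
  apply poles_jF p hp v
  by_contra h
  have := Fermat.Agent.ES.P36.JDict26.ord_jdF_nonneg p p (dvd_refl p) v (not_lt.mp h)
  omega

end CharZero

section Hyp

variable {p : ℕ} [NeZero p] {k : Type*} [Field k]
  {r : Place Kbar (FF p) → Place k (modularFunctionFieldFullC k p)}

/-- **`CuspHyp` for the two cusps of `X₀(p)`**, from the three facts on the reduced cusps. -/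
theorem cuspHyp_of_red (hp : p.Prime)
    (h1 : (r (cuspInf p)).ord (jpk k p) = -(p : ℤ))
    (h2 : (r (cuspZero p)).ord (jk k p) = -(p : ℤ))
    (h3 : r (cuspInf p) ≠ r (cuspZero p)) :
    CuspHyp r (cuspInf p) (cuspZero p) where
  ord_inf_j := by rw [jL_eq_jF]; exact ord_cuspInf_jF p
  ord_inf_jp := by rw [jpL_eq_jdF]; exact ord_cuspInf_jdF p
  ord_zero_j := by rw [jL_eq_jF]; exact ord_cuspZero_jF p
  ord_zero_jp := by rw [jpL_eq_jdF]; exact ord_cuspZero_jdF p
  poles_j := fun P hP => by rw [jL_eq_jF] at hP; exact poles_jF p hp P hP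
  poles_jp := fun P hP => by rw [jpL_eq_jdF] at hP; exact poles_jdF p hp P hP
  red_inf_jp := h1
  red_zero_j := h2
  red_ne := h3

/-- The reduction half of `CuspHyp` for the actual cusps (= `G0.red_cusp`). -/
structure RedCuspHyp (r : Place Kbar (FF p) → Place k (modularFunctionFieldFullC k p)) : Prop where
  red_inf_jp : (r (cuspInf p)).ord (jpk k p) = -(p : ℤ)
  red_zero_j : (r (cuspZero p)).ord (jk k p) = -(p : ℤ)
  red_ne : r (cuspInf p) ≠ r (cuspZero p)

theorem RedCuspHyp.cuspHyp (hp : p.Prime) (H : RedCuspHyp r) :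
    CuspHyp r (cuspInf p) (cuspZero p) :=
  cuspHyp_of_red hp H.red_inf_jp H.red_zero_j H.red_ne

end Hyp

/-! ### (D3) for the actual cusps -/

section Final

set_option synthInstance.maxHeartbeats 400000

variable (A : ValuationSubring (AlgebraicClosure ℚ)) {p : ℕ} [NeZero p]
  {r : Place (AlgebraicClosure ℚ) (modularFunctionFieldBar p) →
    Place (IsLocalRing.ResidueField A)
      (modularFunctionFieldFullC (IsLocalRing.ResidueField A) p)}
  [HasPrincipalDivisors (AlgebraicClosure ℚ) (modularFunctionFieldBar p)]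

/-- **(D3) `red_fibre`** at the cusps of `X₀(p)`. -/
theorem red_fibre_cusp (hp : p.Prime) (hr : IsPlaceReductionModL A p r) (H : RedCuspHyp r)
    (x : Place (AlgebraicClosure ℚ) (modularFunctionFieldBar p))
    {a : AlgebraicClosure ℚ} (ha : a ∉ A) (hxa : IsVal x (jL (AlgebraicClosure ℚ) p) a) :
    r x = r (cuspInf p) ∨ r x = r (cuspZero p) :=
  red_fibre_modL A hr (H.cuspHyp hp) x ha hxa

/-- **(D3) `red_eq_inf`** at the cusps of `X₀(p)`. -/
theorem red_eq_inf_cusp (hp : p.Prime) (hr : IsPlaceReductionModL A p r) (H : RedCuspHyp r)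
    (x : Place (AlgebraicClosure ℚ) (modularFunctionFieldBar p))
    {a b : AlgebraicClosure ℚ} (ha : a ∉ A) (hxa : IsVal x (jL (AlgebraicClosure ℚ) p) a)
    (hxb : IsVal x (jpL (AlgebraicClosure ℚ) p) b)
    (hval : A.valuation b = A.valuation a ^ p) : r x = r (cuspInf p) :=
  red_eq_inf_modL A hp.two_le hr (H.cuspHyp hp) x ha hxa hxb hval

/-- **(D3) `red_eq_zero`** at the cusps of `X₀(p)`. -/
theorem red_eq_zero_cusp (hp : p.Prime) (hr : IsPlaceReductionModL A p r) (H : RedCuspHyp r)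
    (x : Place (AlgebraicClosure ℚ) (modularFunctionFieldBar p))
    {a b : AlgebraicClosure ℚ} (ha : a ∉ A) (hxa : IsVal x (jL (AlgebraicClosure ℚ) p) a)
    (hxb : IsVal x (jpL (AlgebraicClosure ℚ) p) b)
    (hval : A.valuation b ^ p = A.valuation a) : r x = r (cuspZero p) :=
  red_eq_zero_modL A hp.two_le hr (H.cuspHyp hp) x ha hxa hxb hval

/-- **(D3) `red_eq_inf_iff`** at the cusps of `X₀(p)`. -/
theorem red_eq_inf_iff_cusp (hp : p.Prime) (hr : IsPlaceReductionModL A p r) (H : RedCuspHyp r)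
    (x : Place (AlgebraicClosure ℚ) (modularFunctionFieldBar p))
    {a b : AlgebraicClosure ℚ} (ha : a ∉ A) (hxa : IsVal x (jL (AlgebraicClosure ℚ) p) a)
    (hxb : IsVal x (jpL (AlgebraicClosure ℚ) p) b)
    (hdich : A.valuation b = A.valuation a ^ p ∨ A.valuation b ^ p = A.valuation a) :
    r x = r (cuspInf p) ↔ A.valuation b = A.valuation a ^ p :=
  red_eq_inf_iff_modL A hp.two_le hr (H.cuspHyp hp) x ha hxa hxb hdich

end Final

end Fermat.Agent.MAZ.RedFibre34
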