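/-
Programme MAZ (S15), brick F-D3 / (R-abs) (helper34), file 5: **the reduction of the two cusps of
`X₀(p)` under a place reduction** — abstract form.

`L ⊇ ℚ`, `A ⊂ L` a valuation ring, `π : A → k`, `r` a place reduction of level `p`
(`hr : IsPlaceReductionAlong A π p r`), `P∞`, `P0` two places of degree one of the function field
over `L` with `ord_{P∞} j = -1`, `ord_{P0} j = -p` and no other pole of `j` (`CuspHyp0`).  On the
special fibre we assume

* `(Ra) PoleDegHyp k p` : every effective divisor dominating the poles of `j̄` has degree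
  `≥ p + 1` (i.e. the pole divisor of `j̄` has degree `[F̃ : k(j̄)] = p + 1`);
* `(Rb) QPlaceHyp k p` : there is a place `P_q` of `F̃` with `ord j̄ = -1` and `ord j̄_p = -p`
  (the place of the `q`-expansion).

Then (`red_cusp_abs`): `r P∞ ≠ r P0`, `ord_{r P0} j̄ = -p`, `ord_{r P∞} j̄ = -1`,
`ord_{r P∞} j̄_p = -p`, `r P∞ = P_q` for every `P_q` as in (Rb), and no zero of `j` reduces to
`r P∞` or `r P0` (more precisely `ord_P j = 0` for every other place `P` of these two fibres).
-/
import Mathlib
import Fermat.Agent.MAZ.RedFibre34.Main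

set_option autoImplicit false
set_option linter.unusedSectionVars false

noncomputable section

open HahnSeries IntermediateField AlgebraicCurve ModularCurve
open Fermat.Agent.X0.FF Fermat.Agent.MW.Bridge34

namespace Fermat.Agent.MAZ.RedFibre34

section PushNonneg

variable {α β : Type*}

theorem mapDomain_nonneg (r : α → β) (E : α →₀ ℤ) (h : ∀ P, 0 ≤ E P) (Q : β) :
    0 ≤ Finsupp.mapDomain r E Q := by
  classical
  rw [mapDomain_apply_eq_sum]
  refine Finset.sum_nonneg fun P _ => ?_
  split_ifs
  · exact h P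
  · exact le_rfl

end PushNonneg

section Hyps

variable (L : Type*) [Field L] [Algebra ℚ L] (k : Type*) [Field k] (p : ℕ) [NeZero p]

/-- The characteristic-zero hypotheses on the two cusps. -/
structure CuspHyp0 (Pinf P0 : Place L (laurentBaseChange L (modularFunctionFieldFull p))) :
    Prop where
  ord_inf_j : Pinf.ord (jL L p) = -1
  ord_zero_j : P0.ord (jL L p) = -(p : ℤ)
  poles_j : ∀ P : Place L (laurentBaseChange L (modularFunctionFieldFull p)),
    P.ord (jL L p) < 0 → P = Pinf ∨ P = P0
  deg_inf : Pinf.deg = 1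
  deg_zero : P0.deg = 1

/-- **(Ra)** every effective divisor dominating the poles of `j̄` has degree at least `p + 1`. -/
def PoleDegHyp : Prop :=
  ∀ D : Divisor k (modularFunctionFieldFullC k p), (∀ Q, 0 ≤ D Q) →
    (∀ Q : Place k (modularFunctionFieldFullC k p), -(Q.ord (jk k p)) ≤ D Q) →
      (p : ℤ) + 1 ≤ Divisor.degree D

/-- **(Rb)** a place of the special fibre at which `j̄`, `j̄_p` have the orders of the
`q`-expansion. -/
def IsQPlace (Pq : Place k (modularFunctionFieldFullC k p)) : Prop :=
  Pq.ord (jk k p) = -1 ∧ Pq.ord (jpk k p) = -(p : ℤ)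

/-- **(Rb)** existence of the place of the `q`-expansion. -/
def QPlaceHyp : Prop := ∃ Pq : Place k (modularFunctionFieldFullC k p), IsQPlace k p Pq

end Hyps

section Main

variable {L : Type*} [Field L] [Algebra ℚ L] {A : ValuationSubring L} {k : Type*} [Field k]
  {π : A →+* k} {p : ℕ} [NeZero p]
  {r : Place L (laurentBaseChange L (modularFunctionFieldFull p)) →
    Place k (modularFunctionFieldFullC k p)}
  [HasPrincipalDivisors L (laurentBaseChange L (modularFunctionFieldFull p))]
  {Pinf P0 : Place L (laurentBaseChange L (modularFunctionFieldFull p))}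

/-- The conclusion of `red_cusp`. -/
structure RedCuspAbs (r : Place L (laurentBaseChange L (modularFunctionFieldFull p)) →
    Place k (modularFunctionFieldFullC k p))
    (Pinf P0 : Place L (laurentBaseChange L (modularFunctionFieldFull p))) : Prop where
  red_ne : r Pinf ≠ r P0
  red_inf_j : (r Pinf).ord (jk k p) = -1
  red_inf_jp : (r Pinf).ord (jpk k p) = -(p : ℤ)
  red_zero_j : (r P0).ord (jk k p) = -(p : ℤ)
  eq_qPlace : ∀ Pq : Place k (modularFunctionFieldFullC k p), IsQPlace k p Pq → r Pinf = Pq
  ord_eq_zero : ∀ P : Place L (laurentBaseChange L (modularFunctionFieldFull p)),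
    (r P = r Pinf ∨ r P = r P0) → P ≠ Pinf → P ≠ P0 → P.ord (jL L p) = 0

/-- **`red_cusp`, abstract form.** -/
theorem red_cusp_abs (hp : 2 ≤ p) (hr : IsPlaceReductionAlong A π p r)
    (H0 : CuspHyp0 L p Pinf P0) (hRa : PoleDegHyp k p) (hRb : QPlaceHyp k p) :
    RedCuspAbs r Pinf P0 := by
  classical
  have hp2 : (2 : ℤ) ≤ (p : ℤ) := by exact_mod_cast hp
  have hne : Pinf ≠ P0 := by
    intro h
    have h1 := H0.ord_inf_j
    rw [h, H0.ord_zero_j] at h1
    omega
  obtain ⟨E, hE, -⟩ := HasPrincipalDivisors.exists_divisor (K := L) (jL L p) (jL_ne_zero L p)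
  -- the effective divisor `Z_j = div j + (∞) + p (0)`
  set E' : Divisor L (laurentBaseChange L (modularFunctionFieldFull p)) :=
    E + Finsupp.single Pinf 1 + Finsupp.single P0 (p : ℤ) with hE'
  have hE'inf : E' Pinf = 0 := by
    rw [hE', Finsupp.add_apply, Finsupp.add_apply, hE, Finsupp.single_eq_same,
      Finsupp.single_eq_of_ne hne, H0.ord_inf_j]
    ring
  have hE'zero : E' P0 = 0 := by
    rw [hE', Finsupp.add_apply, Finsupp.add_apply, hE, Finsupp.single_eq_same,
      Finsupp.single_eq_of_ne hne.symm, H0.ord_zero_j]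
    ring
  have hE'other : ∀ P, P ≠ Pinf → P ≠ P0 → E' P = P.ord (jL L p) := by
    intro P h1 h2
    rw [hE', Finsupp.add_apply, Finsupp.add_apply, hE, Finsupp.single_eq_of_ne h1,
      Finsupp.single_eq_of_ne h2]
    ring
  have hE'nn : ∀ P, 0 ≤ E' P := by
    intro P
    by_cases h1 : P = Pinf
    · rw [h1, hE'inf]
    by_cases h2 : P = P0
    · rw [h2, hE'zero]
    rw [hE'other P h1 h2]
    by_contra hneg
    rcases H0.poles_j P (not_le.mp hneg) with h | h
    · exact h1 h
    · exact h2 h
  -- the divisor `(r ∞) + p (r 0)` on the special fibre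
  set D : Divisor k (modularFunctionFieldFullC k p) :=
    Finsupp.single (r Pinf) 1 + Finsupp.single (r P0) (p : ℤ) with hD
  have hJk : (Jf p A π).tok ≠ 0 := by
    rw [Jf_tok]
    exact jk_ne_zero k p
  have hpush : ∀ Q, Finsupp.mapDomain r E' Q = Q.ord (jk k p) + D Q := by
    intro Q
    rw [hE', Finsupp.mapDomain_add, Finsupp.mapDomain_add, Finsupp.mapDomain_single,
      Finsupp.mapDomain_single, Finsupp.add_apply, Finsupp.add_apply,
      push_ord hr (Jf p A π) hJk E (fun P => by rw [hE, Jf_toL]) Q, Jf_tok, hD,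
      Finsupp.add_apply]
    ring
  have hdom : ∀ Q : Place k (modularFunctionFieldFullC k p), -(Q.ord (jk k p)) ≤ D Q := by
    intro Q
    have h := mapDomain_nonneg r E' hE'nn Q
    rw [hpush] at h
    linarith
  have hDapply : ∀ Q, D Q = (if Q = r Pinf then 1 else 0) + (if Q = r P0 then (p : ℤ) else 0) := by
    intro Q
    rw [hD, Finsupp.add_apply, Finsupp.single_apply, Finsupp.single_apply]
    congr 1
    · by_cases h : Q = r Pinf
      · rw [if_pos h, if_pos h.symm]
      · rw [if_neg h, if_neg (fun h' => h h'.symm)]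
    · by_cases h : Q = r P0
      · rw [if_pos h, if_pos h.symm]
      · rw [if_neg h, if_neg (fun h' => h h'.symm)]
  have hDnn : ∀ Q, 0 ≤ D Q := by
    intro Q
    rw [hDapply]
    split_ifs <;> omega
  have hdegD : Divisor.degree D = (p : ℤ) + 1 := by
    rw [hD, map_add, Divisor.degree_single, Divisor.degree_single, hr.1, hr.1, H0.deg_inf,
      H0.deg_zero]
    push_cast
    ring
  -- exactness on the two fibres
  have hexact : ∀ Q0 : Place k (modularFunctionFieldFullC k p), (Q0 = r Pinf ∨ Q0 = r P0) →
      -(Q0.ord (jk k p)) = D Q0 := by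
    intro Q0 hQ0
    by_contra hstrict
    have hlt : -(Q0.ord (jk k p)) < D Q0 := lt_of_le_of_ne (hdom Q0) hstrict
    have hdegQ0 : Q0.deg = 1 := by
      rcases hQ0 with h | h
      · rw [h, hr.1, H0.deg_inf]
      · rw [h, hr.1, H0.deg_zero]
    have hDQ0 : 1 ≤ D Q0 := by
      rw [hDapply]
      rcases hQ0 with h | h
      · rw [if_pos h]
        split_ifs <;> omega
      · rw [if_pos h]
        split_ifs <;> omega
    set D' : Divisor k (modularFunctionFieldFullC k p) := D - Finsupp.single Q0 1 with hD'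
    have hD'apply : ∀ Q, D' Q = D Q - (if Q = Q0 then 1 else 0) := by
      intro Q
      rw [hD', Finsupp.sub_apply, Finsupp.single_apply]
      congr 1
      by_cases h : Q = Q0
      · rw [if_pos h, if_pos h.symm]
      · rw [if_neg h, if_neg (fun h' => h h'.symm)]
    have h1 : ∀ Q, 0 ≤ D' Q := by
      intro Q
      rw [hD'apply]
      split_ifs with h
      · rw [h]; omega
      · have := hDnn Q; omega
    have h2 : ∀ Q : Place k (modularFunctionFieldFullC k p), -(Q.ord (jk k p)) ≤ D' Q := by
      intro Q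
      rw [hD'apply]
      split_ifs with h
      · rw [h]; omega
      · have := hdom Q; omega
    have h3 := hRa D' h1 h2
    rw [hD', map_sub, hdegD, Divisor.degree_single, hdegQ0] at h3
    simp at h3
  have hfibre : ∀ Q0 : Place k (modularFunctionFieldFullC k p), (Q0 = r Pinf ∨ Q0 = r P0) →
      ∀ P, r P = Q0 → E' P = 0 := by
    intro Q0 hQ0 P hP
    have h0 : Finsupp.mapDomain r E' Q0 = 0 := by
      rw [hpush, ← hexact Q0 hQ0]
      ring
    exact eq_zero_of_mapDomain_eq_zero r E' Q0 (fun P' _ => hE'nn P') h0 P hP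
  obtain ⟨Pq, hq1, hq2⟩ := hRb
  have hPq_mem : ∀ Pq' : Place k (modularFunctionFieldFullC k p), Pq'.ord (jk k p) = -1 →
      Pq' = r Pinf ∨ Pq' = r P0 := by
    intro Pq' h1
    have h := hdom Pq'
    rw [h1, hDapply] at h
    by_contra hcon
    push Not at hcon
    rw [if_neg hcon.1, if_neg hcon.2] at h
    omega
  have hred_ne : r Pinf ≠ r P0 := by
    intro heq
    have hD1 : D (r Pinf) = (p : ℤ) + 1 := by
      rw [hDapply, if_pos rfl, if_pos heq]
      ring
    have hPq : Pq = r Pinf := by
      rcases hPq_mem Pq hq1 with h | h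
      · exact h
      · rw [h, heq]
    have h1 := hexact (r Pinf) (Or.inl rfl)
    rw [hD1, ← hPq, hq1] at h1
    omega
  have hDinf : D (r Pinf) = 1 := by
    rw [hDapply, if_pos rfl, if_neg hred_ne]
    ring
  have hDzero : D (r P0) = (p : ℤ) := by
    rw [hDapply, if_neg (fun h => hred_ne h.symm), if_pos rfl]
    ring
  have hinfj : (r Pinf).ord (jk k p) = -1 := by
    have h1 := hexact (r Pinf) (Or.inl rfl)
    rw [hDinf] at h1
    omega
  have hzeroj : (r P0).ord (jk k p) = -(p : ℤ) := by
    have h1 := hexact (r P0) (Or.inr rfl)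
    rw [hDzero] at h1
    omega
  have heqq : ∀ Pq' : Place k (modularFunctionFieldFullC k p), IsQPlace k p Pq' →
      r Pinf = Pq' := by
    intro Pq' hPq'
    rcases hPq_mem Pq' hPq'.1 with h | h
    · exact h.symm
    · exfalso
      have h1 := hPq'.1
      rw [h, hzeroj] at h1
      omega
  refine ⟨hred_ne, hinfj, ?_, hzeroj, heqq, ?_⟩
  · rw [heqq Pq ⟨hq1, hq2⟩]
    exact hq2
  · intro P hP h1 h2
    rw [← hE'other P h1 h2]
    rcases hP with h | h
    · exact hfibre (r Pinf) (Or.inl rfl) P h
    · exact hfibre (r P0) (Or.inr rfl) P h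

end Main

end Fermat.Agent.MAZ.RedFibre34
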