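/-
Programme MAZ (S15), brick F-D3 / (R-abs) (helper34), file 6: **`RedCuspHyp r` for the actual cusps
of `X₀(p)` from the two special-fibre inputs (Ra), (Rb)**.

* `cuspHyp0_cusps` : the characteristic-zero hypotheses `CuspHyp0` hold for `cuspInf p`,
  `cuspZero p` (`p` prime);
* `redCuspHyp_of_inputs` : for `r` with `IsPlaceReductionAlong A π p r` (`A ⊂ ℚbar`),
  `PoleDegHyp k p` (Ra) and `QPlaceHyp k p` (Rb) give `RedCuspHyp r`, hence `CuspHyp r ∞ 0`;
* `red_cusp_eq_qPlace`, `ord_eq_zero_of_red_cusp` : the by-products (`r ∞` is the `q`-expansion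
  place; no zero of `j` reduces to `r ∞` or `r 0`).
-/
import Mathlib
import Fermat.Agent.MAZ.RedFibre34.Cusps
import Fermat.Agent.MAZ.RedFibre34.RedCusp

set_option autoImplicit false
set_option linter.unusedSectionVars false

noncomputable section

open HahnSeries IntermediateField AlgebraicCurve ModularCurve
open scoped MatrixGroups

namespace Fermat.Agent.MAZ.RedFibre34

open Fermat.Agent.X0 Fermat.Agent.MW.Bridge34 Fermat.Agent.MAZ.HeckeCusp89

section Inst

variable {p : ℕ} [NeZero p]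

/-- The characteristic-zero hypotheses for the two cusps of `X₀(p)`. -/
theorem cuspHyp0_cusps (hp : p.Prime) : CuspHyp0 Kbar p (cuspInf p) (cuspZero p) where
  ord_inf_j := by rw [jL_eq_jF]; exact ord_cuspInf_jF p
  ord_zero_j := by rw [jL_eq_jF]; exact ord_cuspZero_jF p
  poles_j := fun P hP => by rw [jL_eq_jF] at hP; exact poles_jF p hp P hP
  deg_inf := Fermat.Agent.RED.TOP.FbarFacts20.deg_eq_one_bar p _
  deg_zero := Fermat.Agent.RED.TOP.FbarFacts20.deg_eq_one_bar p _

variable {A : ValuationSubring Kbar} {k : Type*} [Field k] {π : A →+* k}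
  {r : Place Kbar (FF p) → Place k (modularFunctionFieldFullC k p)}
  [HasPrincipalDivisors Kbar (FF p)]

/-- **`red_cusp`** for the actual cusps, all conclusions. -/
theorem redCuspAbs_of_inputs (hp : p.Prime) (hr : IsPlaceReductionAlong A π p r)
    (hRa : PoleDegHyp k p) (hRb : QPlaceHyp k p) : RedCuspAbs r (cuspInf p) (cuspZero p) :=
  red_cusp_abs hp.two_le hr (cuspHyp0_cusps hp) hRa hRb

/-- **`red_cusp`**: the reduction half of the cusp hypotheses. -/
theorem redCuspHyp_of_inputs (hp : p.Prime) (hr : IsPlaceReductionAlong A π p r)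
    (hRa : PoleDegHyp k p) (hRb : QPlaceHyp k p) : RedCuspHyp r :=
  have H := redCuspAbs_of_inputs hp hr hRa hRb
  ⟨H.red_inf_jp, H.red_zero_j, H.red_ne⟩

/-- All cusp hypotheses of (D3) from the two special-fibre inputs. -/
theorem cuspHyp_of_inputs (hp : p.Prime) (hr : IsPlaceReductionAlong A π p r)
    (hRa : PoleDegHyp k p) (hRb : QPlaceHyp k p) : CuspHyp r (cuspInf p) (cuspZero p) :=
  (redCuspHyp_of_inputs hp hr hRa hRb).cuspHyp hp

/-- `r ∞` is the place of the `q`-expansion. -/
theorem red_cusp_eq_qPlace (hp : p.Prime) (hr : IsPlaceReductionAlong A π p r)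
    (hRa : PoleDegHyp k p) (Pq : Place k (modularFunctionFieldFullC k p))
    (hPq : IsQPlace k p Pq) : r (cuspInf p) = Pq :=
  (redCuspAbs_of_inputs hp hr hRa ⟨Pq, hPq⟩).eq_qPlace Pq hPq

/-- No zero (or pole) of `j` other than the cusps reduces to `r ∞` or `r 0`. -/
theorem ord_eq_zero_of_red_cusp (hp : p.Prime) (hr : IsPlaceReductionAlong A π p r)
    (hRa : PoleDegHyp k p) (hRb : QPlaceHyp k p) (P : Place Kbar (FF p))
    (hP : r P = r (cuspInf p) ∨ r P = r (cuspZero p)) (h1 : P ≠ cuspInf p)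
    (h2 : P ≠ cuspZero p) : P.ord (jF p) = 0 := by
  rw [← jL_eq_jF]
  exact (redCuspAbs_of_inputs hp hr hRa hRb).ord_eq_zero P hP h1 h2

end Inst

end Fermat.Agent.MAZ.RedFibre34
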