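/-
Programme MAZ (S15), brick F-D3 (helper34), file 7: **the cusp hypotheses of (D3) are
UNCONDITIONAL**: for a prime `p`, a prime `ℓ ≠ p`, a valuation ring `A ⊂ ℚbar` over `ℓ` and ANY
place reduction `r` of level `p` modulo `A`, `CuspHyp r (cuspInf p) (cuspZero p)` holds.

* `poleDegHyp_of_field` : (Ra) `PoleDegHyp k p` for `k` algebraically closed of characteristic
  `ℓ ≠ p`, from helper18's `RedCusp18.poles_jk_field` (finsum form) and `deg = 1`;
* `cuspHyp_modL`, `redCuspHyp_modL`, `redCuspAbs_modL` : the cusp hypotheses;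
* `red_fibre_final`, `red_eq_inf_final`, `red_eq_zero_final`, `red_eq_inf_iff_final` : (D3) with
  no cusp hypothesis left.
-/
import Mathlib
import Fermat.Agent.MAZ.RedFibre34.RedCuspInst
import Fermat.Agent.MAZ.RedCusp18.Main

set_option autoImplicit false
set_option linter.unusedSectionVars false

noncomputable section

open HahnSeries IntermediateField AlgebraicCurve ModularCurve
open scoped MatrixGroups

namespace Fermat.Agent.MAZ.RedFibre34

open Fermat.Agent.X0 Fermat.Agent.MW.Bridge34 Fermat.Agent.MAZ.HeckeCusp89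
open Fermat.Agent.MAZ.RedCusp18

section Field

variable {p : ℕ} [NeZero p]

/-- **(Ra)** for an algebraically closed field of characteristic `ℓ ≠ p`. -/
theorem poleDegHyp_of_field (hp : p.Prime) (k : Type) [Field k] [IsAlgClosed k] (ℓ : ℕ)
    [Fact ℓ.Prime] [CharP k ℓ] (hℓp : ℓ ≠ p) : PoleDegHyp k p := by
  classical
  intro D hD0 hDdom
  obtain ⟨hfin, hsum⟩ := poles_jk_field p hp k ℓ hℓp
  have hℓp' : ¬ ℓ ∣ p := fun h => hℓp ((Nat.prime_dvd_prime_iff_eq Fact.out hp).1 h)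
  obtain ⟨hgen, -, -⟩ := isGen_sep_jk p k ℓ hℓp'
  have hdeg1 : ∀ v : Place k ↥(modularFunctionFieldFullC k p), v.deg = 1 :=
    fun v => FF.deg_eq_one hgen v
  have hdegD : Divisor.degree D = ∑ v ∈ D.support, D v := by
    rw [Divisor.degree, Finsupp.liftAddHom_apply, Finsupp.sum]
    refine Finset.sum_congr rfl fun v _ => ?_
    rw [AddMonoidHom.coe_mulRight, hdeg1]
    simp
  have hsub : hfin.toFinset ⊆ D.support := by
    intro v hv
    rw [Set.Finite.mem_toFinset, Set.mem_ofPred_eq] at hv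
    rw [Finsupp.mem_support_iff]
    have := hDdom v
    omega
  have h1 : ∑ᶠ (v : Place k ↥(modularFunctionFieldFullC k p)) (_ : v.ord (jk k p) < 0),
      -v.ord (jk k p) = ∑ v ∈ hfin.toFinset, -v.ord (jk k p) :=
    finsum_mem_eq_finite_toFinset_sum _ hfin
  rw [hdegD, ← hsum, h1]
  calc ∑ v ∈ hfin.toFinset, -v.ord (jk k p) ≤ ∑ v ∈ hfin.toFinset, D v :=
        Finset.sum_le_sum fun v _ => hDdom v
    _ ≤ ∑ v ∈ D.support, D v :=
        Finset.sum_le_sum_of_subset_of_nonneg hsub fun v _ _ => hD0 v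

end Field

section ModL

set_option synthInstance.maxHeartbeats 400000

variable (A : ValuationSubring (AlgebraicClosure ℚ)) {p : ℕ} [NeZero p]
  {r : Place (AlgebraicClosure ℚ) (modularFunctionFieldBar p) →
    Place (IsLocalRing.ResidueField A)
      (modularFunctionFieldFullC (IsLocalRing.ResidueField A) p)}
  [HasPrincipalDivisors (AlgebraicClosure ℚ) (modularFunctionFieldBar p)]

/-- **(Ra)** for the residue field of a valuation ring of `ℚbar` over `ℓ ≠ p`. -/
theorem poleDegHyp_modL (hp : p.Prime) {ℓ : ℕ} (hℓ : ℓ.Prime) (hℓp : ℓ ≠ p)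
    (hA : A.LiesOverPrime ℓ) : PoleDegHyp (IsLocalRing.ResidueField A) p := by
  have : Fact ℓ.Prime := ⟨hℓ⟩
  have : IsAlgClosed (IsLocalRing.ResidueField A) :=
    Fermat.Agent.ES.KRON.KronInst10.isAlgClosed_residueField A
  have : CharP (IsLocalRing.ResidueField A) ℓ :=
    Fermat.Agent.ES.KRON.KronInst10.charP_residueField A hℓ hA
  exact poleDegHyp_of_field hp (IsLocalRing.ResidueField A) ℓ hℓp

/-- **`red_cusp`**, all conclusions, unconditionally. -/
theorem redCuspAbs_modL (hp : p.Prime) {ℓ : ℕ} (hℓ : ℓ.Prime) (hℓp : ℓ ≠ p)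
    (hA : A.LiesOverPrime ℓ) (hr : IsPlaceReductionModL A p r) :
    RedCuspAbs r (cuspInf p) (cuspZero p) :=
  redCuspAbs_of_inputs hp hr (poleDegHyp_modL A hp hℓ hℓp hA)
    (exists_qPlace (IsLocalRing.ResidueField A) p)

/-- **`red_cusp`**: the reduction half of the cusp hypotheses, unconditionally. -/
theorem redCuspHyp_modL (hp : p.Prime) {ℓ : ℕ} (hℓ : ℓ.Prime) (hℓp : ℓ ≠ p)
    (hA : A.LiesOverPrime ℓ) (hr : IsPlaceReductionModL A p r) : RedCuspHyp r :=
  redCuspHyp_of_inputs hp hr (poleDegHyp_modL A hp hℓ hℓp hA)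
    (exists_qPlace (IsLocalRing.ResidueField A) p)

/-- **All cusp hypotheses of (D3) hold for every place reduction modulo `A`.** -/
theorem cuspHyp_modL (hp : p.Prime) {ℓ : ℕ} (hℓ : ℓ.Prime) (hℓp : ℓ ≠ p)
    (hA : A.LiesOverPrime ℓ) (hr : IsPlaceReductionModL A p r) :
    CuspHyp r (cuspInf p) (cuspZero p) :=
  (redCuspHyp_modL A hp hℓ hℓp hA hr).cuspHyp hp

/-- `r ∞` is the place of the `q`-expansion of the special fibre. -/
theorem red_cuspInf_eq_qPlace (hp : p.Prime) {ℓ : ℕ} (hℓ : ℓ.Prime) (hℓp : ℓ ≠ p)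
    (hA : A.LiesOverPrime ℓ) (hr : IsPlaceReductionModL A p r) :
    r (cuspInf p) = qPlace (IsLocalRing.ResidueField A) p :=
  (redCuspAbs_modL A hp hℓ hℓp hA hr).eq_qPlace _
    ⟨qPlace_ord_jk (IsLocalRing.ResidueField A) p, qPlace_ord_jpk (IsLocalRing.ResidueField A) p⟩

/-- **(D3) `red_fibre`**, unconditional. -/
theorem red_fibre_final (hp : p.Prime) {ℓ : ℕ} (hℓ : ℓ.Prime) (hℓp : ℓ ≠ p)
    (hA : A.LiesOverPrime ℓ) (hr : IsPlaceReductionModL A p r)
    (x : Place (AlgebraicClosure ℚ) (modularFunctionFieldBar p))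
    {a : AlgebraicClosure ℚ} (ha : a ∉ A) (hxa : IsVal x (jL (AlgebraicClosure ℚ) p) a) :
    r x = r (cuspInf p) ∨ r x = r (cuspZero p) :=
  red_fibre_cusp A hp hr (redCuspHyp_modL A hp hℓ hℓp hA hr) x ha hxa

/-- **(D3) `red_eq_inf`**, unconditional. -/
theorem red_eq_inf_final (hp : p.Prime) {ℓ : ℕ} (hℓ : ℓ.Prime) (hℓp : ℓ ≠ p)
    (hA : A.LiesOverPrime ℓ) (hr : IsPlaceReductionModL A p r)
    (x : Place (AlgebraicClosure ℚ) (modularFunctionFieldBar p))
    {a b : AlgebraicClosure ℚ} (ha : a ∉ A) (hxa : IsVal x (jL (AlgebraicClosure ℚ) p) a)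
    (hxb : IsVal x (jpL (AlgebraicClosure ℚ) p) b)
    (hval : A.valuation b = A.valuation a ^ p) : r x = r (cuspInf p) :=
  red_eq_inf_cusp A hp hr (redCuspHyp_modL A hp hℓ hℓp hA hr) x ha hxa hxb hval

/-- **(D3) `red_eq_zero`**, unconditional. -/
theorem red_eq_zero_final (hp : p.Prime) {ℓ : ℕ} (hℓ : ℓ.Prime) (hℓp : ℓ ≠ p)
    (hA : A.LiesOverPrime ℓ) (hr : IsPlaceReductionModL A p r)
    (x : Place (AlgebraicClosure ℚ) (modularFunctionFieldBar p))
    {a b : AlgebraicClosure ℚ} (ha : a ∉ A) (hxa : IsVal x (jL (AlgebraicClosure ℚ) p) a)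
    (hxb : IsVal x (jpL (AlgebraicClosure ℚ) p) b)
    (hval : A.valuation b ^ p = A.valuation a) : r x = r (cuspZero p) :=
  red_eq_zero_cusp A hp hr (redCuspHyp_modL A hp hℓ hℓp hA hr) x ha hxa hxb hval

/-- **(D3) `red_eq_inf_iff`**, unconditional (under the Newton-polygon dichotomy). -/
theorem red_eq_inf_iff_final (hp : p.Prime) {ℓ : ℕ} (hℓ : ℓ.Prime) (hℓp : ℓ ≠ p)
    (hA : A.LiesOverPrime ℓ) (hr : IsPlaceReductionModL A p r)
    (x : Place (AlgebraicClosure ℚ) (modularFunctionFieldBar p))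
    {a b : AlgebraicClosure ℚ} (ha : a ∉ A) (hxa : IsVal x (jL (AlgebraicClosure ℚ) p) a)
    (hxb : IsVal x (jpL (AlgebraicClosure ℚ) p) b)
    (hdich : A.valuation b = A.valuation a ^ p ∨ A.valuation b ^ p = A.valuation a) :
    r x = r (cuspInf p) ↔ A.valuation b = A.valuation a ^ p :=
  red_eq_inf_iff_cusp A hp hr (redCuspHyp_modL A hp hℓ hℓp hA hr) x ha hxa hxb hdich

end ModL

end Fermat.Agent.MAZ.RedFibre34
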